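import Fermat.Agent.XiTuran.Derivatives
import Mathlib.Analysis.Convex.Deriv
import Mathlib.Analysis.Convex.SpecificFunctions.Deriv
import Mathlib.Analysis.Complex.ExponentialBounds
import Mathlib.Analysis.Real.Pi.Bounds

/-!
# `log Φ (√x)` is strictly concave

`(log Φ)'''' < 0` on `u ≥ 0`: the first term gives `-128 h - 12 a₃ v` and the rest is bounded by its
value at the left end of three intervals of `h`. So `(log Φ)''' < 0` on `u > 0`, hence
`(log Φ)' u / u` decreases strictly.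
-/

set_option autoImplicit false

noncomputable section

namespace FA.XiTuran

open Real Filter Topology FA.DeBruijnNewman
open scoped Real

theorem expPolyZ_exp_le {z₀ z : ℝ} (h₀ : 9 ≤ z₀) (h : z₀ ≤ z) {k : ℕ} (hk : k ≤ 4) :
    expPolyZ k z * Real.exp (-z) ≤ expPolyZ k z₀ * Real.exp (-z₀) := by
  have key : ∀ p p' : ℝ → ℝ, (∀ x, HasDerivAt p (p' x) x) → (∀ x, 9 ≤ x → p' x ≤ p x) →
      p z * Real.exp (-z) ≤ p z₀ * Real.exp (-z₀) := by
    intro p p' hp hle
    have hd : ∀ x, HasDerivAt (fun y => p y * Real.exp (-y)) ((p' x - p x) * Real.exp (-x)) x :=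
      fun x => ((hp x).mul (hasDerivAt_neg x).exp).congr_deriv (by ring)
    refine antitoneOn_of_hasDerivWithinAt_nonpos (convex_Ici (9 : ℝ))
      (fun x _ => (hd x).continuousAt.continuousWithinAt) (fun x _ => (hd x).hasDerivWithinAt)
      (fun x hx => ?_) (show z₀ ∈ Set.Ici 9 from h₀) (show z ∈ Set.Ici 9 from h₀.trans h) h
    rw [interior_Ici] at hx
    exact mul_nonpos_of_nonpos_of_nonneg (sub_nonpos.2 (hle x (le_of_lt hx))) (Real.exp_pos _).le
  obtain rfl | rfl | rfl | rfl | rfl : k = 0 ∨ k = 1 ∨ k = 2 ∨ k = 3 ∨ k = 4 := by omega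
  · exact key _ (fun _ => 0) (fun x => hasDerivAt_const x _) fun x _ => zero_le_one
  · exact key _ (fun _ => 4) (fun x => ((hasDerivAt_id' x).const_mul 4).congr_deriv (mul_one _))
      fun x hx => by simp only [expPolyZ]; linarith
  · exact key _ (fun x => 16 * (2 * x - 1))
      (fun x => ((((hasDerivAt_id' x).pow 2).sub (hasDerivAt_id' x)).const_mul 16).congr_deriv
        (by push_cast; ring))
      fun x hx => by simp only [expPolyZ]; nlinarith
  · exact key _ (fun x => 64 * (3 * x ^ 2 - 6 * x + 1))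
      (fun x => (((((hasDerivAt_id' x).pow 3).sub (((hasDerivAt_id' x).pow 2).const_mul 3)).add
        (hasDerivAt_id' x)).const_mul 64).congr_deriv (by push_cast; ring))
      fun x hx => by
        simp only [expPolyZ]
        nlinarith [mul_le_mul_of_nonneg_left hx (sq_nonneg x)]
  · exact key _ (fun x => 256 * (4 * x ^ 3 - 18 * x ^ 2 + 14 * x - 1))
      (fun x => ((((((hasDerivAt_id' x).pow 4).sub (((hasDerivAt_id' x).pow 3).const_mul 6)).add
        (((hasDerivAt_id' x).pow 2).const_mul 7)).sub (hasDerivAt_id' x)).const_mul 256).congr_deriv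
          (by push_cast; ring))
      fun x hx => by
        simp only [expPolyZ]
        have h1 : 16 ≤ (x - 5) ^ 2 := by nlinarith
        nlinarith [mul_le_mul_of_nonneg_left h1 (sq_nonneg x)]

theorem tailBracket_mono {M K z₀ z v₀ v : ℝ} (hM : 0 ≤ M) (hK : 0 ≤ K) (h₀ : 9 ≤ z₀) (h : z₀ ≤ z)
    (hv : 0 ≤ v) (hv₀ : v ≤ v₀) {k : ℕ} (hk : k ≤ 4) :
    tailBracket k M K z v * Real.exp (-z) ≤ tailBracket k M K z₀ v₀ * Real.exp (-z₀) := by
  simp only [tailBracket, add_mul, mul_assoc M, mul_assoc K]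
  rw [Finset.sum_mul, Finset.sum_mul]
  refine add_le_add (mul_le_mul_of_nonneg_left (expPolyZ_exp_le h₀ h hk) hM)
    (mul_le_mul_of_nonneg_left (Finset.sum_le_sum fun i _ => ?_) hK)
  rw [mul_assoc _ (expPolyZ (k - i) z), mul_assoc _ (expPolyZ (k - i) z₀)]
  exact mul_le_mul (mul_le_mul_of_nonneg_left (invPoly_mono hv hv₀ i).2 (Nat.cast_nonneg _))
    (expPolyZ_exp_le h₀ h (by omega))
    (mul_nonneg (expPolyZ_bounds (by linarith) _).1 (Real.exp_pos _).le)
    (mul_nonneg (Nat.cast_nonneg _) ((invPoly_mono hv hv₀ i).1.trans (invPoly_mono hv hv₀ i).2))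

/-- The terms of index `n ≥ 3`. -/
theorem tailTerm_succ_le {u : ℝ} (hu : 0 ≤ u) {k : ℕ} (hk : k ≤ 4) (j : ℕ) :
    tailTerm k (j + 1) u ≤ 0.416 * (1 / 2) ^ j := by
  have hu' : -(1 / 20) < u := by linarith
  have hh : 6.283184 ≤ hKer u := le_trans (by linarith [Real.pi_gt_d6]) (hKer_zero_le hu)
  obtain ⟨a, ha⟩ : ∃ a : ℝ, a = ((j + 1 : ℕ) : ℝ) + 2 := ⟨_, rfl⟩
  have ha' : a = (j : ℝ) + 3 := by rw [ha]; push_cast; ring
  have ha3 : 3 ≤ a := by rw [ha']; linarith [(Nat.cast_nonneg j : (0 : ℝ) ≤ j)]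
  have hw : 8 ≤ a ^ 2 - 1 := by nlinarith
  obtain ⟨z, hz⟩ : ∃ z, z = zKer (a ^ 2 - 1) u := ⟨_, rfl⟩
  have hz1 : 3.141592 * (a ^ 2 - 1) ≤ z := by
    rw [hz, zKer]
    nlinarith
  have hz25 : 25 ≤ z := by nlinarith
  obtain ⟨hv, -⟩ := vKer_bounds hu'
  have hv2 : vKer u ≤ 0.3047 := by
    rw [vKer, inv_le_comm₀ (by linarith) (by norm_num)]
    norm_num at hh ⊢
    linarith
  have hi := fun i => invPoly_mono hv.le hv2 i
  have i0 : invPoly 0 (vKer u) ≤ 0.305 := (hi 0).2.trans (by norm_num [invPoly])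
  have i1 : invPoly 1 (vKer u) ≤ 2.34 := (hi 1).2.trans (by norm_num [invPoly])
  have i2 : invPoly 2 (vKer u) ≤ 26.6 := (hi 2).2.trans (by norm_num [invPoly])
  have i3 : invPoly 3 (vKer u) ≤ 432 := (hi 3).2.trans (by norm_num [invPoly])
  have i4 : invPoly 4 (vKer u) ≤ 9400 := (hi 4).2.trans (by norm_num [invPoly])
  have z2 : 25 * z ≤ z ^ 2 := by nlinarith
  have z3 : 25 * z ^ 2 ≤ z ^ 3 := by nlinarith
  have z4 : 25 * z ^ 3 ≤ z ^ 4 := by nlinarith
  have p1 : expPolyZ 1 z ≤ z ^ 4 * (4 / 15625) := by simp only [expPolyZ]; linarith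
  have p2 : expPolyZ 2 z ≤ z ^ 4 * (16 / 625) := by simp only [expPolyZ]; linarith
  have p3 : expPolyZ 3 z ≤ z ^ 4 * (64 / 25) := by simp only [expPolyZ]; linarith
  have p4 : expPolyZ 4 z ≤ z ^ 4 * 256 := by simp only [expPolyZ]; linarith
  have p0 : expPolyZ 0 z ≤ z ^ 4 * (1 / 390625) := by simp only [expPolyZ]; linarith
  have hb : ∀ i j : ℕ, ∀ {A B : ℝ}, invPoly i (vKer u) ≤ A → expPolyZ j z ≤ B →
      invPoly i (vKer u) * expPolyZ j z ≤ A * B := fun i j A B h1 h2 =>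
    mul_le_mul h1 h2 (expPolyZ_bounds (by linarith) j).1 ((hi i).1.trans h1)
  have hb' : tailBracket k (a ^ 4) (3 * a ^ 2 * (a ^ 2 - 1)) z (vKer u) ≤
      z ^ 4 * (578.5 * a ^ 4) := by
    have hK : 0 ≤ 3 * a ^ 2 * (a ^ 2 - 1) := mul_nonneg (by positivity) (by linarith)
    have hS : ∑ i ∈ Finset.range (k + 1), (k.choose i : ℝ) * invPoly i (vKer u) *
        expPolyZ (k - i) z ≤ z ^ 4 * 107.5 := by
      obtain rfl | rfl | rfl | rfl | rfl : k = 0 ∨ k = 1 ∨ k = 2 ∨ k = 3 ∨ k = 4 := by omega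
      all_goals simp only [Finset.sum_range_succ, Finset.sum_range_zero, zero_add,
        Nat.choose_zero_right, Nat.choose_one_right, Nat.choose_self, Nat.cast_one, one_mul,
        Nat.sub_zero, Nat.sub_self, Nat.reduceSub, show Nat.choose 3 2 = 3 from rfl,
        show Nat.choose 4 2 = 6 from rfl, show Nat.choose 4 3 = 4 from rfl, Nat.cast_ofNat,
        mul_assoc]
      · linarith [hb 0 0 i0 p0]
      · linarith [hb 0 1 i0 p1, hb 1 0 i1 p0]
      · linarith [hb 0 2 i0 p2, hb 1 1 i1 p1, hb 2 0 i2 p0]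
      · linarith [hb 0 3 i0 p3, hb 1 2 i1 p2, hb 2 1 i2 p1, hb 3 0 i3 p0]
      · linarith [hb 0 4 i0 p4, hb 1 3 i1 p3, hb 2 2 i2 p2, hb 3 1 i3 p1, hb 4 0 i4 p0]
    rw [tailBracket]
    nlinarith [mul_le_mul_of_nonneg_left (expPolyZ_bounds (show 7 ≤ z by linarith) k).2
      (show 0 ≤ a ^ 4 by positivity), mul_le_mul_of_nonneg_left hS hK,
      mul_nonneg (show 0 ≤ z ^ 4 by positivity) (sq_nonneg a)]
  have hz4 : z ^ 4 * Real.exp (-z) ≤
      (3.141592 * (a ^ 2 - 1)) ^ 4 * Real.exp (-(3.141592 * (a ^ 2 - 1))) := by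
    refine antitoneOn_of_hasDerivWithinAt_nonpos (f := fun x : ℝ => x ^ 4 * Real.exp (-x))
      (f' := fun x => (4 * x ^ 3 - x ^ 4) * Real.exp (-x)) (convex_Ici (9 : ℝ))
      (fun x _ => by fun_prop) (fun x _ => ?_) (fun x hx => ?_) (Set.mem_Ici.2 (by nlinarith))
      (Set.mem_Ici.2 (by linarith)) hz1
    · exact (((hasDerivAt_id' x).pow 4).mul (hasDerivAt_neg x).exp).congr_deriv
        (by simp only [Pi.pow_apply]; push_cast; ring) |>.hasDerivWithinAt
    · rw [interior_Ici] at hx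
      refine mul_nonpos_of_nonpos_of_nonneg ?_ (Real.exp_pos _).le
      nlinarith [Set.mem_Ioi.1 hx, pow_nonneg (show 0 ≤ x by linarith [Set.mem_Ioi.1 hx]) 3]
  have hexp : Real.exp (-(3.141592 * (a ^ 2 - 1))) ≤
      Real.exp (-25) * Real.exp (-18) ^ j := by
    rw [← Real.exp_nat_mul, ← Real.exp_add]
    refine Real.exp_le_exp.2 ?_
    rw [ha']
    nlinarith [sq_nonneg (j : ℝ)]
  have hpow : a ^ 12 ≤ 531441 * ((4 / 3 : ℝ) ^ 12) ^ j := by
    have hber := one_add_mul_le_pow (show (-2 : ℝ) ≤ 1 / 3 by norm_num) j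
    rw [show (531441 : ℝ) = 3 ^ 12 by norm_num, ← pow_mul, mul_comm 12 j, pow_mul, ← mul_pow]
    refine pow_le_pow_left₀ (by linarith) ?_ 12
    rw [ha', show (4 / 3 : ℝ) = 1 + 1 / 3 by norm_num]
    linarith
  have h25 : Real.exp (-25) ≤ 1 / 72000000000 := by
    rw [Real.exp_neg, one_div, show (25 : ℝ) = ((25 : ℕ) : ℝ) by norm_num, ← Real.exp_one_pow]
    refine inv_anti₀ (by norm_num) (le_trans ?_ (pow_le_pow_left₀ (by norm_num)
      Real.exp_one_gt_d9.le 25))
    norm_num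
  have h18 : (4 / 3 : ℝ) ^ 12 * Real.exp (-18) ≤ 1 / 2 := by
    rw [Real.exp_neg, show (18 : ℝ) = ((18 : ℕ) : ℝ) by norm_num, ← Real.exp_one_pow,
      ← div_eq_mul_inv, div_le_iff₀ (by positivity)]
    refine le_trans ?_ (mul_le_mul_of_nonneg_left (pow_le_pow_left₀ (by norm_num)
      Real.exp_one_gt_d9.le 18) (by norm_num))
    norm_num
  simp only [tailTerm, ← ha, ← hz]
  calc tailBracket k (a ^ 4) (3 * a ^ 2 * (a ^ 2 - 1)) z (vKer u) * Real.exp (-z)
      ≤ 578.5 * a ^ 4 * (z ^ 4 * Real.exp (-z)) :=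
        (mul_le_mul_of_nonneg_right hb' (Real.exp_pos _).le).trans_eq (by ring)
    _ ≤ 578.5 * a ^ 4 * ((3.141592 * a ^ 2) ^ 4 * (Real.exp (-25) * Real.exp (-18) ^ j)) := by
        refine mul_le_mul_of_nonneg_left (hz4.trans (mul_le_mul ?_ hexp (Real.exp_pos _).le
          (by positivity))) (by positivity)
        exact pow_le_pow_left₀ (by nlinarith) (by nlinarith) 4
    _ = 578.5 * 3.141592 ^ 4 * (a ^ 12 * (Real.exp (-25) * Real.exp (-18) ^ j)) := by ring
    _ ≤ 578.5 * 3.141592 ^ 4 * (531441 * ((4 / 3 : ℝ) ^ 12) ^ j *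
          (1 / 72000000000 * Real.exp (-18) ^ j)) := by gcongr
    _ = 578.5 * 3.141592 ^ 4 * 531441 / 72000000000 * ((4 / 3 : ℝ) ^ 12 * Real.exp (-18)) ^ j := by
        rw [mul_pow ((4 / 3 : ℝ) ^ 12)]
        ring
    _ ≤ _ := by
        refine mul_le_mul (by norm_num) (pow_le_pow_left₀ (by positivity) h18 j) (by positivity)
          (by norm_num)

/-- The series, against its first term at the left end. -/
theorem tailSum_le {u h₀ : ℝ} (hu : 0 ≤ u) (h₁ : 6 ≤ h₀) (hh : h₀ ≤ hKer u) {k : ℕ} (hk : k ≤ 4) :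
    tailSum k u ≤
      tailBracket k 16 36 (3 * h₀ / 2) (h₀ - 3)⁻¹ * Real.exp (-(3 * h₀ / 2)) + 0.832 := by
  have hu' : -(1 / 20) < u := by linarith
  have hs := summable_tailTerm hu' hk
  rw [tailSum, hs.tsum_eq_zero_add]
  refine add_le_add ?_ ?_
  · have := tailBracket_mono (M := 16) (K := 36) (z₀ := 3 * h₀ / 2) (z := 3 * hKer u / 2)
      (v₀ := (h₀ - 3)⁻¹) (v := vKer u) (k := k) (by norm_num) (by norm_num) (by linarith)
      (by linarith) (vKer_bounds hu').1.le (inv_anti₀ (by linarith) (by linarith)) hk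
    rw [tailTerm, Nat.cast_zero, zero_add]
    norm_num [zKer]
    exact this
  · have hg := (hasSum_geometric_two.mul_left (0.416 : ℝ))
    refine ((summable_nat_add_iff 1).2 hs |>.tsum_le_tsum (fun j => tailTerm_succ_le hu hk j)
      hg.summable).trans ?_
    rw [hg.tsum_eq]
    norm_num

theorem exp_lower {x : ℝ} (hx : 0 ≤ x) (n : ℕ) :
    (2.7182818283 : ℝ) ^ n * (1 + x + x ^ 2 / 2 + x ^ 3 / 6) ≤ Real.exp (n + x) := by
  rw [Real.exp_add, ← Real.exp_one_pow]
  refine mul_le_mul (pow_le_pow_left₀ (by norm_num) Real.exp_one_gt_d9.le n) ?_ (by positivity)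
    (by positivity)
  have := Real.sum_le_exp_of_nonneg hx 4
  simp [Finset.sum_range_succ, Nat.factorial] at this
  linarith

theorem tail_numeric :
    tailBracket 1 16 36 (3 * 6.2828 / 2) (6.2828 - 3)⁻¹ * Real.exp (-(3 * 6.2828 / 2)) ≤ 0.168 ∧
    tailBracket 2 16 36 (3 * 6.2828 / 2) (6.2828 - 3)⁻¹ * Real.exp (-(3 * 6.2828 / 2)) ≤ 4.1 ∧
    tailBracket 4 16 36 (3 * 6.2828 / 2) (6.2828 - 3)⁻¹ * Real.exp (-(3 * 6.2828 / 2)) ≤ 3800 ∧
    tailBracket 4 16 36 (3 * 6.75 / 2) (6.75 - 3)⁻¹ * Real.exp (-(3 * 6.75 / 2)) ≤ 2300 ∧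
    tailBracket 4 16 36 (3 * 7.75 / 2) (7.75 - 3)⁻¹ * Real.exp (-(3 * 7.75 / 2)) ≤ 800 := by
  have e1 : (12370 : ℝ) ≤ Real.exp (3 * 6.2828 / 2) := by
    refine le_trans ?_ ((exp_lower (x := 0.4242) (by norm_num) 9).trans_eq (by norm_num))
    norm_num
  have e2 : (24900 : ℝ) ≤ Real.exp (3 * 6.75 / 2) := by
    refine le_trans ?_ ((exp_lower (x := 0.125) (by norm_num) 10).trans_eq (by norm_num))
    norm_num
  have e3 : (111000 : ℝ) ≤ Real.exp (3 * 7.75 / 2) := by
    refine le_trans ?_ ((exp_lower (x := 0.625) (by norm_num) 11).trans_eq (by norm_num))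
    norm_num
  simp only [Real.exp_neg, ← div_eq_mul_inv, div_le_iff₀ (Real.exp_pos _)]
  refine ⟨le_trans ?_ (mul_le_mul_of_nonneg_left e1 (by norm_num)),
    le_trans ?_ (mul_le_mul_of_nonneg_left e1 (by norm_num)),
    le_trans ?_ (mul_le_mul_of_nonneg_left e1 (by norm_num)),
    le_trans ?_ (mul_le_mul_of_nonneg_left e2 (by norm_num)),
    le_trans ?_ (mul_le_mul_of_nonneg_left e3 (by norm_num))⟩
  all_goals
    simp only [tailBracket, Finset.sum_range_succ, Finset.sum_range_zero, expPolyZ, invPoly,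
      Nat.choose_zero_right, Nat.choose_one_right, Nat.choose_self, Nat.sub_zero, Nat.sub_self,
      Nat.reduceSub, zero_add, show Nat.choose 4 2 = 6 from rfl, show Nat.choose 4 3 = 4 from rfl]
    norm_num

/-- **The fourth derivative is negative.** -/
theorem logPhiFour_neg {u : ℝ} (hu : 0 ≤ u) : logPhiFour u < 0 := by
  have hu' : -(1 / 20) < u := by linarith
  have hh : 6.2828 ≤ hKer u := le_trans (by linarith [Real.pi_gt_d4]) (hKer_zero_le hu)
  obtain ⟨n1, n2, n4, n4', n4''⟩ := tail_numeric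
  have R0 := tailSum_nonneg hu' (k := 0) (by omega)
  have R1 := tailSum_nonneg hu' (k := 1) (by omega)
  have R2 := tailSum_nonneg hu' (k := 2) (by omega)
  have R3 := tailSum_nonneg hu' (k := 3) (by omega)
  have R4 := tailSum_nonneg hu' (k := 4) (by omega)
  have hq : 1 ≤ 1 + tailSum 0 u := le_add_of_nonneg_right R0
  have b1 : tailSum 1 u ≤ 1 :=
    (tailSum_le hu (by norm_num) hh (k := 1) (by omega)).trans (by linarith)
  have b2 : tailSum 2 u ≤ 5 :=
    (tailSum_le hu (by norm_num) hh (k := 2) (by omega)).trans (by linarith)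
  have t1 : tailSum 4 u / (1 + tailSum 0 u) ≤ tailSum 4 u := div_le_self R4 hq
  have t2 : 0 ≤ (4 * (tailSum 1 u * tailSum 3 u) + 3 * tailSum 2 u ^ 2) / (1 + tailSum 0 u) ^ 2 :=
    by positivity
  have t3 : 12 * (tailSum 1 u ^ 2 * tailSum 2 u) / (1 + tailSum 0 u) ^ 3 ≤ 60 := by
    refine (div_le_self (by positivity) (one_le_pow₀ hq)).trans ?_
    nlinarith [mul_le_mul (pow_le_pow_left₀ R1 b1 2) b2 R2 (by norm_num : (0 : ℝ) ≤ 1 ^ 2)]
  have t4 : 0 ≤ 6 * tailSum 1 u ^ 4 / (1 + tailSum 0 u) ^ 4 := by positivity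
  obtain ⟨hv, -⟩ := vKer_bounds hu'
  have key : -128 * hKer u - 12 * invPoly 3 (vKer u) + tailSum 4 u + 60 < 0 := by
    rcases le_or_gt (hKer u) 6.75 with h1 | h1
    · have hv1 : (6.75 - 3 : ℝ)⁻¹ ≤ vKer u :=
        inv_anti₀ (by norm_num at hh ⊢; linarith) (by linarith)
      have := (invPoly_mono (v := (6.75 - 3 : ℝ)⁻¹) (by norm_num) hv1 3).2
      have hb := tailSum_le hu (by norm_num) hh (k := 4) (by omega)
      norm_num [invPoly] at this hh ⊢
      norm_num at hb n4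
      linarith
    rcases le_or_gt (hKer u) 7.75 with h2 | h2
    · have hv1 : (7.75 - 3 : ℝ)⁻¹ ≤ vKer u :=
        inv_anti₀ (by norm_num at hh ⊢; linarith) (by linarith)
      have := (invPoly_mono (v := (7.75 - 3 : ℝ)⁻¹) (by norm_num) hv1 3).2
      have hb := tailSum_le hu (by norm_num) h1.le (k := 4) (by omega)
      norm_num [invPoly] at this h1 ⊢
      norm_num at hb n4'
      linarith
    · have := (invPoly_mono hv.le le_rfl 3).1
      have hb := tailSum_le hu (by norm_num) h2.le (k := 4) (by omega)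
      norm_num at hb n4'' h2 ⊢
      linarith
  rw [logPhiFour]
  linarith

theorem logPhiThree_neg {u : ℝ} (hu : 0 < u) : logPhiThree u < 0 := by
  have h := strictAntiOn_of_hasDerivWithinAt_neg (f := logPhiThree) (f' := logPhiFour)
    (convex_Ici (0 : ℝ))
    (fun x hx => (hasDerivAt_logPhiThree (show -(1 / 20) < x by
      linarith [Set.mem_Ici.1 hx])).continuousAt.continuousWithinAt)
    (fun x hx => (hasDerivAt_logPhiThree (show -(1 / 20) < x by
      rw [interior_Ici] at hx; linarith [Set.mem_Ioi.1 hx])).hasDerivWithinAt)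
    (fun x hx => logPhiFour_neg (by rw [interior_Ici] at hx; exact (Set.mem_Ioi.1 hx).le))
    Set.self_mem_Ici hu.le hu
  rwa [logPhi_odd_zero.2] at h

/-- `u (log Φ)'' u < (log Φ)' u`. -/
theorem logPhi_slope_neg {u : ℝ} (hu : 0 < u) : u * logPhiTwo u - logPhiOne u < 0 := by
  have hd : ∀ x : ℝ, -(1 / 20) < x →
      HasDerivAt (fun y => y * logPhiTwo y - logPhiOne y) (x * logPhiThree x) x := fun x hx =>
    (((hasDerivAt_id' x).mul (hasDerivAt_logPhiTwo hx)).sub (hasDerivAt_logPhiOne hx)).congr_deriv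
      (by ring)
  have h := strictAntiOn_of_hasDerivWithinAt_neg (f := fun y => y * logPhiTwo y - logPhiOne y)
    (f' := fun x => x * logPhiThree x) (convex_Ici (0 : ℝ))
    (fun x hx => (hd x (by linarith [Set.mem_Ici.1 hx])).continuousAt.continuousWithinAt)
    (fun x hx => (hd x (by rw [interior_Ici] at hx; linarith [Set.mem_Ioi.1 hx])).hasDerivWithinAt)
    (fun x hx => by
      rw [interior_Ici] at hx
      exact mul_neg_of_pos_of_neg hx (logPhiThree_neg hx))
    Set.self_mem_Ici hu.le hu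
  simpa [logPhi_odd_zero.1] using h

/-- **`log Φ (√x)` is strictly concave on `x > 0`**, also with a linear term added. -/
theorem strictConcaveOn_log_polyaPhi_sqrt (t : ℝ) :
    StrictConcaveOn ℝ (Set.Ioi (0 : ℝ)) fun x => Real.log (polyaPhi (√x)) + t * x := by
  have hd : ∀ x : ℝ, 0 < x → HasDerivAt (fun y => Real.log (polyaPhi (√y)) + t * y)
      (logPhiOne (√x) / (2 * √x) + t) x := fun x hx =>
    (((hasDerivAt_log_polyaPhi (show -(1 / 20) < √x by linarith [Real.sqrt_nonneg x])).comp x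
      (Real.hasDerivAt_sqrt hx.ne')).add ((hasDerivAt_id' x).const_mul t)).congr_deriv (by ring)
  have hg : StrictAntiOn (fun u => logPhiOne u / u) (Set.Ioi (0 : ℝ)) := by
    refine strictAntiOn_of_hasDerivWithinAt_neg (f' := fun u =>
      (u * logPhiTwo u - logPhiOne u) / u ^ 2) (convex_Ioi 0) ?_ ?_ ?_
    · intro x hx
      exact ((hasDerivAt_logPhiOne (show -(1 / 20) < x by linarith [Set.mem_Ioi.1 hx])).div
        (hasDerivAt_id' x) (ne_of_gt hx)).continuousAt.continuousWithinAt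
    · intro x hx
      rw [interior_Ioi] at hx
      refine (((hasDerivAt_logPhiOne (show -(1 / 20) < x by linarith [Set.mem_Ioi.1 hx])).div
        (hasDerivAt_id' x) (ne_of_gt hx)).congr_deriv ?_).hasDerivWithinAt
      ring
    · intro x hx
      rw [interior_Ioi] at hx
      exact div_neg_of_neg_of_pos (logPhi_slope_neg hx) (pow_pos hx 2)
  refine StrictAntiOn.strictConcaveOn_of_deriv (convex_Ioi 0)
    (fun x hx => (hd x hx).continuousAt.continuousWithinAt) ?_
  rw [interior_Ioi]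
  intro x hx y hy hxy
  rw [(hd x hx).deriv, (hd y hy).deriv]
  have := hg (Set.mem_Ioi.2 (Real.sqrt_pos.2 hx)) (Set.mem_Ioi.2 (Real.sqrt_pos.2 hy))
    (Real.sqrt_lt_sqrt (le_of_lt hx) hxy)
  simp only at this
  rw [mul_comm 2 √x, mul_comm 2 √y, ← div_div, ← div_div]
  linarith

end FA.XiTuran

end
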