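import Fermat.Agent.DeBruijnNewman.Kernel
import Mathlib.Analysis.Calculus.SmoothSeries
import Mathlib.Analysis.SpecialFunctions.Log.Deriv

/-!
# The first four derivatives of `log Φ`

For `u > -1/20` put `h = 2 π e^(4u)` and `v = 1/(h - 3)`, so `d h = 4 h` and `d v = -4 v (1 + 3 v)`.
Then `Φ = π e^(5u) (h - 3) e^(-h/2) (1 + ρ)` where the term of index `n ≥ 2` of `ρ` is
`(n⁴ + 3 n² (n² - 1) v) e^(-z)`, `z = (n² - 1) h / 2`; `(-1)^k ρ^(k)` is a series of terms of the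
same shape.
-/

set_option autoImplicit false

noncomputable section

namespace FA.XiTuran

open Real Filter Topology FA.DeBruijnNewman
open scoped Real

/-- `2 π e^(4u)`. -/
def hKer (u : ℝ) : ℝ := 2 * π * Real.exp (4 * u)

/-- `1 / (h - 3)`. -/
def vKer (u : ℝ) : ℝ := (hKer u - 3)⁻¹

/-- `z`, for the weight `w`. -/
def zKer (w u : ℝ) : ℝ := w * hKer u / 2

/-- `(-1)^k D^k v`, as a polynomial in `v`. -/
def invPoly : ℕ → ℝ → ℝ
  | 0, v => v
  | 1, v => 4 * v * (1 + 3 * v)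
  | 2, v => 16 * v * (1 + 3 * v) * (1 + 6 * v)
  | 3, v => 64 * v * (1 + 3 * v) * (1 + 18 * v + 54 * v ^ 2)
  | 4, v => 256 * v * (1 + 3 * v) * (1 + 42 * v + 324 * v ^ 2 + 648 * v ^ 3)
  | _, _ => 0

/-- `(-1)^k D^k e^(-z)` without the exponential, as a polynomial in `z`. -/
def expPolyZ : ℕ → ℝ → ℝ
  | 0, _ => 1
  | 1, z => 4 * z
  | 2, z => 16 * (z ^ 2 - z)
  | 3, z => 64 * (z ^ 3 - 3 * z ^ 2 + z)
  | 4, z => 256 * (z ^ 4 - 6 * z ^ 3 + 7 * z ^ 2 - z)
  | _, _ => 0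

/-- The bracket of Leibniz's rule. -/
def tailBracket (k : ℕ) (M K z v : ℝ) : ℝ :=
  M * expPolyZ k z +
    K * ∑ i ∈ Finset.range (k + 1), (k.choose i : ℝ) * invPoly i v * expPolyZ (k - i) z

/-- The terms of `(-1)^k ρ^(k)`. -/
def tailTerm (k i : ℕ) (u : ℝ) : ℝ :=
  tailBracket k (((i : ℝ) + 2) ^ 4) (3 * ((i : ℝ) + 2) ^ 2 * (((i : ℝ) + 2) ^ 2 - 1))
      (zKer (((i : ℝ) + 2) ^ 2 - 1) u) (vKer u) *
    Real.exp (-zKer (((i : ℝ) + 2) ^ 2 - 1) u)

/-- `(-1)^k ρ^(k)`. -/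
def tailSum (k : ℕ) (u : ℝ) : ℝ := ∑' i, tailTerm k i u

theorem hKer_gt {u : ℝ} (hu : -(1 / 20) < u) : 5 < hKer u := by
  have h := Real.add_one_le_exp (4 * u)
  have : (4 / 5 : ℝ) < Real.exp (4 * u) := by linarith
  rw [hKer]
  nlinarith [Real.pi_gt_d4]

theorem hKer_zero_le {u : ℝ} (hu : 0 ≤ u) : 2 * π ≤ hKer u :=
  le_mul_of_one_le_right (by positivity) (Real.one_le_exp (by linarith))

theorem vKer_bounds {u : ℝ} (hu : -(1 / 20) < u) : 0 < vKer u ∧ vKer u ≤ 1 / 2 := by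
  have h := hKer_gt hu
  refine ⟨inv_pos.2 (by linarith), ?_⟩
  rw [vKer, one_div]
  exact inv_anti₀ two_pos (by linarith)

theorem hasDerivAt_hKer (u : ℝ) : HasDerivAt hKer (4 * hKer u) u := by
  unfold hKer
  exact (((hasDerivAt_id' u).const_mul 4).exp.const_mul (2 * π)).congr_deriv (by ring)

theorem hasDerivAt_zKer (w u : ℝ) : HasDerivAt (zKer w) (4 * zKer w u) u := by
  unfold zKer
  exact (((hasDerivAt_hKer u).const_mul w).div_const 2).congr_deriv (by ring)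

theorem hasDerivAt_vKer {u : ℝ} (hu : -(1 / 20) < u) :
    HasDerivAt vKer (-4 * vKer u * (1 + 3 * vKer u)) u := by
  have h := hKer_gt hu
  have h0 : hKer u - 3 ≠ 0 := by linarith
  refine (((hasDerivAt_hKer u).sub_const 3).inv h0).congr_deriv ?_
  simp only [vKer]
  field_simp
  ring

theorem hasDerivAt_invPoly {u : ℝ} (hu : -(1 / 20) < u) {k : ℕ} (hk : k ≤ 3) :
    HasDerivAt (fun x => invPoly k (vKer x)) (-invPoly (k + 1) (vKer u)) u := by
  have hv := hasDerivAt_vKer hu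
  obtain rfl | rfl | rfl | rfl : k = 0 ∨ k = 1 ∨ k = 2 ∨ k = 3 := by omega
  all_goals simp only [invPoly]
  · exact hv.congr_deriv (by ring)
  · exact ((hv.const_mul 4).mul ((hv.const_mul 3).const_add 1)).congr_deriv (by ring)
  · exact (((hv.const_mul 16).mul ((hv.const_mul 3).const_add 1)).mul
      ((hv.const_mul 6).const_add 1)).congr_deriv (by simp only [Pi.mul_apply]; ring)
  · exact (((hv.const_mul 64).mul ((hv.const_mul 3).const_add 1)).mul
      (((hv.const_mul 18).const_add 1).add ((hv.pow 2).const_mul 54))).congr_deriv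
        (by simp only [Pi.mul_apply, Pi.add_apply, Pi.pow_apply]; push_cast; ring)

theorem hasDerivAt_expPolyZ (w u : ℝ) {k : ℕ} (hk : k ≤ 3) :
    HasDerivAt (fun x => expPolyZ k (zKer w x))
      (4 * zKer w u * expPolyZ k (zKer w u) - expPolyZ (k + 1) (zKer w u)) u := by
  have hz := hasDerivAt_zKer w u
  obtain rfl | rfl | rfl | rfl : k = 0 ∨ k = 1 ∨ k = 2 ∨ k = 3 := by omega
  all_goals simp only [expPolyZ]
  · exact (hasDerivAt_const u (1 : ℝ)).congr_deriv (by ring)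
  · exact (hz.const_mul 4).congr_deriv (by ring)
  · exact (((hz.pow 2).sub hz).const_mul 16).congr_deriv (by push_cast; ring)
  · exact ((((hz.pow 3).sub ((hz.pow 2).const_mul 3)).add hz).const_mul 64).congr_deriv
      (by push_cast; ring)

theorem hasDerivAt_tailTerm {u : ℝ} (hu : -(1 / 20) < u) {k : ℕ} (hk : k ≤ 3) (i : ℕ) :
    HasDerivAt (tailTerm k i) (-tailTerm (k + 1) i u) u := by
  obtain ⟨M, hM⟩ : ∃ M, M = ((i : ℝ) + 2) ^ 4 := ⟨_, rfl⟩
  obtain ⟨w, hw⟩ : ∃ w, w = ((i : ℝ) + 2) ^ 2 - 1 := ⟨_, rfl⟩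
  obtain ⟨K, hK⟩ : ∃ K, K = 3 * ((i : ℝ) + 2) ^ 2 * w := ⟨_, rfl⟩
  rw [show tailTerm k i = fun x =>
    tailBracket k M K (zKer w x) (vKer x) * Real.exp (-zKer w x) from funext fun x => by
      rw [tailTerm, hM, hK, hw]]
  rw [show tailTerm (k + 1) i u = tailBracket (k + 1) M K (zKer w u) (vKer u) *
    Real.exp (-zKer w u) by rw [tailTerm, hM, hK, hw]]
  have hZ := fun j (hj : j ≤ 3) => hasDerivAt_expPolyZ w u (k := j) hj
  have hV := fun j (hj : j ≤ 3) => hasDerivAt_invPoly hu (k := j) hj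
  have hE := (hasDerivAt_zKer w u).neg.exp
  obtain rfl | rfl | rfl | rfl : k = 0 ∨ k = 1 ∨ k = 2 ∨ k = 3 := by omega
  all_goals simp only [tailBracket, Finset.sum_range_succ, Finset.sum_range_zero, zero_add,
    Nat.choose_zero_right, Nat.choose_one_right, Nat.choose_self, Nat.cast_one, one_mul,
    Nat.reduceAdd, Nat.reduceSub, Nat.sub_zero, Nat.sub_self]
  · refine ((((hZ 0 (by omega)).const_mul M).add
      (((hV 0 (by omega)).mul (hZ 0 (by omega))).const_mul K)).mul hE).congr_deriv ?_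
    simp only [Pi.mul_apply, Pi.add_apply, Pi.neg_apply, expPolyZ, Nat.reduceAdd]
    ring
  · refine ((((hZ 1 (by omega)).const_mul M).add ((((hV 0 (by omega)).mul (hZ 1 (by omega))).add
      ((hV 1 (by omega)).mul (hZ 0 (by omega)))).const_mul K)).mul hE).congr_deriv ?_
    simp only [Pi.mul_apply, Pi.add_apply, Pi.neg_apply, expPolyZ, Nat.reduceAdd, Nat.cast_ofNat]
    ring
  · refine ((((hZ 2 (by omega)).const_mul M).add (((((hV 0 (by omega)).mul (hZ 2 (by omega))).add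
      (((hV 1 (by omega)).const_mul ((2 : ℕ) : ℝ)).mul (hZ 1 (by omega)))).add
      ((hV 2 (by omega)).mul (hZ 0 (by omega)))).const_mul K)).mul hE).congr_deriv ?_
    simp only [Pi.mul_apply, Pi.add_apply, Pi.neg_apply, expPolyZ, Nat.reduceAdd,
      show Nat.choose 3 2 = 3 from rfl, Nat.cast_ofNat]
    ring
  · refine ((((hZ 3 (by omega)).const_mul M).add ((((((hV 0 (by omega)).mul (hZ 3 (by omega))).add
      (((hV 1 (by omega)).const_mul ((3 : ℕ) : ℝ)).mul (hZ 2 (by omega)))).add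
      (((hV 2 (by omega)).const_mul ((Nat.choose 3 2 : ℕ) : ℝ)).mul (hZ 1 (by omega)))).add
      ((hV 3 (by omega)).mul (hZ 0 (by omega)))).const_mul K)).mul hE).congr_deriv ?_
    simp only [Pi.mul_apply, Pi.add_apply, Pi.neg_apply, expPolyZ, Nat.reduceAdd,
      show Nat.choose 3 2 = 3 from rfl, show Nat.choose 4 2 = 6 from rfl,
      show Nat.choose 4 3 = 4 from rfl, Nat.cast_ofNat]
    ring

theorem invPoly_mono {v v₀ : ℝ} (hv : 0 ≤ v) (hv₀ : v ≤ v₀) (k : ℕ) :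
    0 ≤ invPoly k v ∧ invPoly k v ≤ invPoly k v₀ := by
  have h0 : 0 ≤ v₀ := hv.trans hv₀
  rcases k with _ | _ | _ | _ | _ | k <;> simp only [invPoly]
  · exact ⟨hv, hv₀⟩
  all_goals first | exact ⟨le_rfl, le_rfl⟩ | exact ⟨by positivity, by gcongr⟩

theorem expPolyZ_bounds {z : ℝ} (hz : 7 ≤ z) (k : ℕ) :
    0 ≤ expPolyZ k z ∧ expPolyZ k z ≤ 256 * z ^ 4 := by
  have h2 : 7 * z ≤ z ^ 2 := by nlinarith
  have h3 : 7 * z ^ 2 ≤ z ^ 3 := by nlinarith
  have h4 : 7 * z ^ 3 ≤ z ^ 4 := by nlinarith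
  rcases k with _ | _ | _ | _ | _ | k <;> simp only [expPolyZ] <;> constructor <;> nlinarith

theorem tailBracket_bounds {M K z v : ℝ} (hM : 0 ≤ M) (hK : 0 ≤ K) (hz : 7 ≤ z) (hv : 0 ≤ v)
    (hv2 : v ≤ 1 / 2) {k : ℕ} (hk : k ≤ 4) :
    0 ≤ tailBracket k M K z v ∧ tailBracket k M K z v ≤ z ^ 4 * (256 * M + 256000000 * K) := by
  have hi : ∀ i, 0 ≤ invPoly i v ∧ invPoly i v ≤ 60000 := fun i => by
    refine ⟨(invPoly_mono hv hv2 i).1, (invPoly_mono hv hv2 i).2.trans ?_⟩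
    rcases i with _ | _ | _ | _ | _ | i <;> simp only [invPoly] <;> norm_num
  refine ⟨add_nonneg (mul_nonneg hM (expPolyZ_bounds hz k).1) (mul_nonneg hK
    (Finset.sum_nonneg fun i _ => mul_nonneg (mul_nonneg (Nat.cast_nonneg _) (hi i).1)
      (expPolyZ_bounds hz _).1)), ?_⟩
  have hsum : ∑ i ∈ Finset.range (k + 1), (k.choose i : ℝ) * invPoly i v * expPolyZ (k - i) z ≤
      ∑ i ∈ Finset.range (k + 1), (k.choose i : ℝ) * 60000 * (256 * z ^ 4) := by
    refine Finset.sum_le_sum fun i _ => ?_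
    exact mul_le_mul (mul_le_mul_of_nonneg_left (hi i).2 (Nat.cast_nonneg _))
      (expPolyZ_bounds hz _).2 (expPolyZ_bounds hz _).1 (by positivity)
  have h16 : (∑ i ∈ Finset.range (k + 1), (k.choose i : ℝ)) ≤ 16 := by
    rw [← Nat.cast_sum, Nat.sum_range_choose]
    exact_mod_cast (Nat.pow_le_pow_right (by norm_num) hk).trans (by norm_num)
  rw [← Finset.sum_mul, ← Finset.sum_mul] at hsum
  have h1 := mul_le_mul_of_nonneg_left (expPolyZ_bounds hz k).2 hM
  have h2 := mul_le_mul_of_nonneg_left (hsum.trans (mul_le_mul_of_nonneg_right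
    (mul_le_mul_of_nonneg_right h16 (by norm_num)) (by positivity))) hK
  rw [tailBracket]
  nlinarith [mul_nonneg hK (show 0 ≤ z ^ 4 by positivity)]

theorem exists_tail_bound : ∃ b : ℕ → ℝ, Summable b ∧ ∀ (k i : ℕ) (u : ℝ), k ≤ 4 →
    -(1 / 20) < u → 0 ≤ tailTerm k i u ∧ tailTerm k i u ≤ b i := by
  refine ⟨fun i => 384 * ((i : ℝ) + 2) ^ 4 * (256 + 3 * 256000000) *
    Real.exp (-((5 : ℝ) / 4 * (i : ℝ))), ?_, fun k i u hk hu => ?_⟩
  · have h := Real.summable_pow_mul_exp_neg_nat_mul 4 (show (0 : ℝ) < 5 / 4 by norm_num)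
    have h0 := Real.summable_pow_mul_exp_neg_nat_mul 0 (show (0 : ℝ) < 5 / 4 by norm_num)
    refine Summable.of_nonneg_of_le (fun i => by positivity) (fun i => ?_)
      ((h.add h0).mul_left (384 * 1296 * (256 + 3 * 256000000)))
    have hp : ((i : ℝ) + 2) ^ 4 ≤ 1296 * ((i : ℝ) ^ 4 + 1) := by
      rcases Nat.eq_zero_or_pos i with rfl | hi
      · norm_num
      · have h1 : ((i : ℝ) + 2) ^ 4 ≤ (3 * (i : ℝ)) ^ 4 :=
          pow_le_pow_left₀ (by positivity) (by linarith [(Nat.one_le_cast.2 hi : (1 : ℝ) ≤ i)]) 4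
        nlinarith [pow_nonneg (Nat.cast_nonneg i : (0 : ℝ) ≤ i) 4]
    rw [pow_zero, one_mul, show -((5 : ℝ) / 4) * (i : ℝ) = -((5 / 4) * (i : ℝ)) by ring]
    nlinarith [mul_le_mul_of_nonneg_right hp (Real.exp_pos (-((5 : ℝ) / 4 * (i : ℝ)))).le]
  obtain ⟨a, ha⟩ : ∃ a : ℝ, a = (i : ℝ) + 2 := ⟨_, rfl⟩
  have ha2 : 2 ≤ a := by rw [ha]; linarith [(Nat.cast_nonneg i : (0 : ℝ) ≤ i)]
  obtain ⟨z, hz⟩ : ∃ z, z = zKer (a ^ 2 - 1) u := ⟨_, rfl⟩
  have hz5 : 5 * (a ^ 2 - 1) / 2 ≤ z := by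
    rw [hz, zKer]
    nlinarith [hKer_gt hu, show 0 ≤ a ^ 2 - 1 by nlinarith]
  have hz7 : 7 ≤ z := by nlinarith
  obtain ⟨hv, hv2⟩ := vKer_bounds hu
  obtain ⟨h1, h2⟩ := tailBracket_bounds (M := a ^ 4) (K := 3 * a ^ 2 * (a ^ 2 - 1))
    (by positivity) (mul_nonneg (by positivity) (by nlinarith)) hz7 hv.le hv2 hk
  simp only [tailTerm, ← ha, ← hz]
  refine ⟨mul_nonneg h1 (Real.exp_pos _).le, ?_⟩
  have h3 : 256 * a ^ 4 + 256000000 * (3 * a ^ 2 * (a ^ 2 - 1)) ≤
      a ^ 4 * (256 + 3 * 256000000) := by nlinarith [sq_nonneg a]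
  have h4 : z ^ 4 * Real.exp (-z) ≤ 384 * Real.exp (-((5 : ℝ) / 4 * (i : ℝ))) := by
    have h5 := Real.pow_div_factorial_le_exp (x := z / 2) (by linarith) 4
    rw [show Real.exp (-z) = Real.exp (-(z / 2)) * Real.exp (-(z / 2)) by
      rw [← Real.exp_add]; ring_nf, ← mul_assoc]
    refine mul_le_mul ?_ (Real.exp_le_exp.2 (by rw [ha] at hz5; nlinarith)) (Real.exp_pos _).le
      (by norm_num)
    rw [Real.exp_neg, ← div_eq_mul_inv, div_le_iff₀ (Real.exp_pos _)]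
    norm_num [Nat.factorial] at h5
    nlinarith
  calc _ ≤ z ^ 4 * (a ^ 4 * (256 + 3 * 256000000)) * Real.exp (-z) :=
        mul_le_mul_of_nonneg_right (h2.trans (mul_le_mul_of_nonneg_left h3 (by positivity)))
          (Real.exp_pos _).le
    _ = a ^ 4 * (256 + 3 * 256000000) * (z ^ 4 * Real.exp (-z)) := by ring
    _ ≤ _ := (mul_le_mul_of_nonneg_left h4 (by positivity)).trans_eq (by ring)

theorem summable_tailTerm {u : ℝ} (hu : -(1 / 20) < u) {k : ℕ} (hk : k ≤ 4) :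
    Summable fun i => tailTerm k i u := by
  obtain ⟨b, hb, h⟩ := exists_tail_bound
  exact Summable.of_nonneg_of_le (fun i => (h k i u hk hu).1) (fun i => (h k i u hk hu).2) hb

theorem tailSum_nonneg {u : ℝ} (hu : -(1 / 20) < u) {k : ℕ} (hk : k ≤ 4) : 0 ≤ tailSum k u := by
  obtain ⟨b, -, h⟩ := exists_tail_bound
  exact tsum_nonneg fun i => (h k i u hk hu).1

theorem hasDerivAt_tailSum {u : ℝ} (hu : -(1 / 20) < u) {k : ℕ} (hk : k ≤ 3) :
    HasDerivAt (tailSum k) (-tailSum (k + 1) u) u := by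
  obtain ⟨b, hb, h⟩ := exists_tail_bound
  rw [show tailSum k = fun x => ∑' i, tailTerm k i x from rfl, tailSum, ← tsum_neg]
  refine hasDerivAt_tsum_of_isPreconnected hb (isOpen_Ioi (a := -(1 / 20 : ℝ)))
    isPreconnected_Ioi (fun i y hy => hasDerivAt_tailTerm hy hk i) (fun i y hy => ?_)
    hu (summable_tailTerm hu (by omega)) hu
  rw [norm_neg, Real.norm_of_nonneg (h (k + 1) i y (by omega) hy).1]
  exact (h (k + 1) i y (by omega) hy).2

/-- **The factorisation.** -/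
theorem polyaPhi_factor {u : ℝ} (hu : -(1 / 20) < u) :
    polyaPhi u = π * Real.exp (5 * u) * (hKer u - 3) * Real.exp (-(hKer u / 2)) *
      (1 + tailSum 0 u) := by
  have hh := hKer_gt hu
  have e9 : Real.exp (9 * u) = Real.exp (5 * u) * Real.exp (4 * u) := by
    rw [← Real.exp_add]
    ring_nf
  have hterm : ∀ i : ℕ, polyaTerm (i + 1) u = π * Real.exp (5 * u) * (hKer u - 3) *
      Real.exp (-(hKer u / 2)) * tailTerm 0 i u := fun i => by
    have h0 : hKer u - 3 ≠ 0 := by linarith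
    rw [polyaTerm, polyaCoef, tailTerm, tailBracket, e9]
    simp only [zero_add, Finset.sum_range_one, Nat.choose_self, Nat.cast_one, one_mul, Nat.sub_self,
      invPoly, expPolyZ, mul_one, vKer, zKer, Nat.cast_add]
    rw [show -(π * ((i : ℝ) + 1 + 1) ^ 2 * Real.exp (4 * u)) =
      -(hKer u / 2) + -((((i : ℝ) + 2) ^ 2 - 1) * hKer u / 2) by rw [hKer]; ring, Real.exp_add]
    field_simp
    rw [hKer]
    ring
  rw [polyaPhi, (summable_polyaTerm u).tsum_eq_zero_add, mul_add, mul_one, tailSum,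
    ← tsum_mul_left]
  congr 1
  · rw [polyaTerm, show polyaCoef 0 = π by simp [polyaCoef], e9, hKer,
      show 2 * π * Real.exp (4 * u) / 2 = π * Real.exp (4 * u) by ring]
    ring
  · exact tsum_congr hterm

/-- `(log Φ)'`. -/
def logPhiOne (u : ℝ) : ℝ := 9 - 2 * hKer u + 12 * invPoly 0 (vKer u) -
  tailSum 1 u / (1 + tailSum 0 u)

/-- `(log Φ)''`. -/
def logPhiTwo (u : ℝ) : ℝ := -8 * hKer u - 12 * invPoly 1 (vKer u) +
  tailSum 2 u / (1 + tailSum 0 u) - tailSum 1 u ^ 2 / (1 + tailSum 0 u) ^ 2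

/-- `(log Φ)'''`. -/
def logPhiThree (u : ℝ) : ℝ := -32 * hKer u + 12 * invPoly 2 (vKer u) -
  tailSum 3 u / (1 + tailSum 0 u) + 3 * (tailSum 1 u * tailSum 2 u) / (1 + tailSum 0 u) ^ 2 -
  2 * tailSum 1 u ^ 3 / (1 + tailSum 0 u) ^ 3

/-- `(log Φ)''''`. -/
def logPhiFour (u : ℝ) : ℝ := -128 * hKer u - 12 * invPoly 3 (vKer u) +
  tailSum 4 u / (1 + tailSum 0 u) -
  (4 * (tailSum 1 u * tailSum 3 u) + 3 * tailSum 2 u ^ 2) / (1 + tailSum 0 u) ^ 2 +
  12 * (tailSum 1 u ^ 2 * tailSum 2 u) / (1 + tailSum 0 u) ^ 3 -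
  6 * tailSum 1 u ^ 4 / (1 + tailSum 0 u) ^ 4

theorem one_add_tailSum_pos {u : ℝ} (hu : -(1 / 20) < u) : 0 < 1 + tailSum 0 u := by
  linarith [tailSum_nonneg hu (k := 0) (by omega)]

theorem hasDerivAt_log_polyaPhi {u : ℝ} (hu : -(1 / 20) < u) :
    HasDerivAt (fun x => Real.log (polyaPhi x)) (logPhiOne u) u := by
  have hh := hKer_gt hu
  have hR := one_add_tailSum_pos hu
  have h1 := ((((hasDerivAt_id' u).const_mul 5).const_add (Real.log π)).add
    (((hasDerivAt_hKer u).sub_const 3).log (by linarith))).sub ((hasDerivAt_hKer u).div_const 2)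
  have h2 := h1.add (((hasDerivAt_tailSum hu (k := 0) (by omega)).const_add 1).log hR.ne')
  refine (h2.congr_of_eventuallyEq ?_).congr_deriv ?_
  · filter_upwards [Ioi_mem_nhds hu] with x (hx : -(1 / 20) < x)
    have hhx := hKer_gt hx
    have hRx := one_add_tailSum_pos hx
    have hp := mul_pos (mul_pos Real.pi_pos (Real.exp_pos (5 * x)))
      (show 0 < hKer x - 3 by linarith)
    rw [polyaPhi_factor hx, Real.log_mul (mul_pos hp (Real.exp_pos _)).ne' hRx.ne',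
      Real.log_mul hp.ne' (Real.exp_pos _).ne',
      Real.log_mul (mul_pos Real.pi_pos (Real.exp_pos _)).ne' (show hKer x - 3 ≠ 0 by linarith),
      Real.log_mul Real.pi_pos.ne' (Real.exp_pos _).ne', Real.log_exp, Real.log_exp]
    simp only [Pi.add_apply, Pi.sub_apply]
    ring
  · have h0 : hKer u - 3 ≠ 0 := by linarith
    simp only [logPhiOne, invPoly, vKer]
    field_simp
    ring

theorem hasDerivAt_logPhiOne {u : ℝ} (hu : -(1 / 20) < u) :
    HasDerivAt logPhiOne (logPhiTwo u) u := by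
  have hR := one_add_tailSum_pos hu
  have q := (hasDerivAt_tailSum hu (k := 0) (by omega)).const_add 1
  have t1 := hasDerivAt_tailSum hu (k := 1) (by omega)
  refine ((((hasDerivAt_hKer u).const_mul 2).const_sub 9).add
    ((hasDerivAt_invPoly hu (k := 0) (by omega)).const_mul 12) |>.sub
      (t1.div q hR.ne')).congr_deriv ?_
  simp only [logPhiTwo]
  field_simp
  ring

theorem hasDerivAt_logPhiTwo {u : ℝ} (hu : -(1 / 20) < u) :
    HasDerivAt logPhiTwo (logPhiThree u) u := by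
  have hR := one_add_tailSum_pos hu
  have q := (hasDerivAt_tailSum hu (k := 0) (by omega)).const_add 1
  have t1 := hasDerivAt_tailSum hu (k := 1) (by omega)
  have t2 := hasDerivAt_tailSum hu (k := 2) (by omega)
  refine (((((hasDerivAt_hKer u).const_mul (-8)).sub
    ((hasDerivAt_invPoly hu (k := 1) (by omega)).const_mul 12)).add (t2.div q hR.ne')).sub
      ((t1.pow 2).div (q.pow 2) (pow_ne_zero 2 hR.ne'))).congr_deriv ?_
  simp only [logPhiThree, Pi.pow_apply]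
  push_cast
  field_simp
  ring

theorem hasDerivAt_logPhiThree {u : ℝ} (hu : -(1 / 20) < u) :
    HasDerivAt logPhiThree (logPhiFour u) u := by
  have hR := one_add_tailSum_pos hu
  have q := (hasDerivAt_tailSum hu (k := 0) (by omega)).const_add 1
  have t1 := hasDerivAt_tailSum hu (k := 1) (by omega)
  have t2 := hasDerivAt_tailSum hu (k := 2) (by omega)
  have t3 := hasDerivAt_tailSum hu (k := 3) (by omega)
  refine ((((((hasDerivAt_hKer u).const_mul (-32)).add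
    ((hasDerivAt_invPoly hu (k := 2) (by omega)).const_mul 12)).sub (t3.div q hR.ne')).add
      (((t1.mul t2).const_mul 3).div (q.pow 2) (pow_ne_zero 2 hR.ne'))).sub
        (((t1.pow 3).const_mul 2).div (q.pow 3) (pow_ne_zero 3 hR.ne'))).congr_deriv ?_
  simp only [logPhiFour, Pi.pow_apply, Pi.mul_apply]
  push_cast
  field_simp
  ring

theorem deriv_parity {f f' : ℝ → ℝ} (σ : ℝ) (hd : ∀ x, |x| < 1 / 20 → HasDerivAt f (f' x) x)
    (hp : ∀ x, |x| < 1 / 20 → f (-x) = σ * f x) (x : ℝ) (hx : |x| < 1 / 20) :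
    f' (-x) = -σ * f' x := by
  have hx' : |(-x)| < 1 / 20 := by rwa [abs_neg]
  have h := (hd (-x) hx').comp x (hasDerivAt_neg x)
  have he : (f ∘ fun y => -y) =ᶠ[𝓝 x] fun y => σ * f y := by
    filter_upwards [(isOpen_lt continuous_abs continuous_const).mem_nhds hx] with y hy using hp y hy
  have := h.unique (((hd x hx).const_mul σ).congr_of_eventuallyEq he)
  linarith

/-- `Φ` is even, so `(log Φ)'''` vanishes at `0`. -/
theorem logPhi_odd_zero : logPhiOne 0 = 0 ∧ logPhiThree 0 = 0 := by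
  have hU : ∀ x : ℝ, |x| < 1 / 20 → -(1 / 20) < x := fun x hx => (abs_lt.1 hx).1
  have h1 := deriv_parity (1 : ℝ) (fun x hx => hasDerivAt_log_polyaPhi (hU x hx))
    fun x _ => by rw [one_mul, polyaPhi_neg]
  have h2 := deriv_parity (-1 : ℝ) (fun x hx => hasDerivAt_logPhiOne (hU x hx)) h1
  have h3 := deriv_parity (-(-1) : ℝ) (fun x hx => hasDerivAt_logPhiTwo (hU x hx)) h2
  have e1 := h1 0 (by norm_num)
  have e3 := h3 0 (by norm_num)
  rw [neg_zero] at e1 e3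
  constructor <;> linarith

end FA.XiTuran

end
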