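import Mathlib.Analysis.Convex.Function
import Mathlib.Analysis.Convex.Topology
import Mathlib.Analysis.SpecialFunctions.Gaussian.GaussianIntegral
import Mathlib.MeasureTheory.Integral.Gamma
import Mathlib.Topology.Order.IntermediateValue

/-!
# Moments of a log-concave density

If `log F (√x)` is strictly concave, `F` exceeds the Gaussian with the same moments of orders `2m`
and `2m + 4` exactly on an interval, so its moment of order `2m + 2` is the larger.
-/

set_option autoImplicit false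

noncomputable section

namespace FA.XiTuran

open MeasureTheory Filter Topology Set
open scoped Real

theorem setIntegral_pos_of_point {g : ℝ → ℝ} (hc : ContinuousOn g (Ioi 0))
    (hi : IntegrableOn g (Ioi 0)) (h0 : ∀ u, 0 < u → 0 ≤ g u) {u₀ : ℝ} (hu₀ : 0 < u₀)
    (hg : 0 < g u₀) : 0 < ∫ u in Ioi (0 : ℝ), g u := by
  rw [setIntegral_pos_iff_support_of_nonneg_ae (ae_restrict_of_forall_mem measurableSet_Ioi h0) hi]
  refine lt_of_lt_of_le ((hc.isOpen_inter_preimage isOpen_Ioi isOpen_Ioi).measure_pos volume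
    ⟨u₀, hu₀, hg⟩) (measure_mono fun u hu => ⟨(ne_of_lt (show 0 < g u from hu.2)).symm, hu.1⟩)

/-- `∫_0^∞ u^(2k) e^(-l u²)`. -/
def gaussMoment (l : ℝ) (k : ℕ) : ℝ := ∫ u in Ioi (0 : ℝ), u ^ (2 * k) * Real.exp (-l * u ^ 2)

theorem integrableOn_gaussMoment {l : ℝ} (hl : 0 < l) (k : ℕ) :
    IntegrableOn (fun u : ℝ => u ^ (2 * k) * Real.exp (-l * u ^ 2)) (Ioi 0) := by
  refine (integrableOn_rpow_mul_exp_neg_mul_sq hl (s := ((2 * k : ℕ) : ℝ))
    (lt_of_lt_of_le neg_one_lt_zero (Nat.cast_nonneg _))).congr_fun (fun u _ => ?_)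
    measurableSet_Ioi
  simp only [Real.rpow_natCast]

theorem gaussMoment_eq {l : ℝ} (hl : 0 < l) (k : ℕ) : gaussMoment l k =
    l ^ (-((k : ℝ) + 1 / 2)) * (1 / 2) * Real.Gamma ((k : ℝ) + 1 / 2) := by
  have h := integral_rpow_mul_exp_neg_mul_rpow (p := 2) (q := ((2 * k : ℕ) : ℝ)) two_pos
    (lt_of_lt_of_le neg_one_lt_zero (Nat.cast_nonneg _)) hl
  rw [show -((((2 * k : ℕ) : ℝ)) + 1) / 2 = -((k : ℝ) + 1 / 2) by push_cast; ring,
    show ((((2 * k : ℕ) : ℝ)) + 1) / 2 = (k : ℝ) + 1 / 2 by push_cast; ring] at h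
  rw [← h, gaussMoment]
  refine setIntegral_congr_fun measurableSet_Ioi fun u _ => ?_
  simp only [Real.rpow_natCast, Real.rpow_two]

theorem gaussMoment_pos {l : ℝ} (hl : 0 < l) (k : ℕ) : 0 < gaussMoment l k := by
  rw [gaussMoment_eq hl]
  exact mul_pos (mul_pos (Real.rpow_pos_of_pos hl _) (by norm_num))
    (Real.Gamma_pos_of_pos (by positivity))

theorem gaussMoment_succ {l : ℝ} (hl : 0 < l) (k : ℕ) :
    gaussMoment l (k + 1) = ((k : ℝ) + 1 / 2) / l * gaussMoment l k := by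
  rw [gaussMoment_eq hl, gaussMoment_eq hl,
    show (((k + 1 : ℕ) : ℝ)) + 1 / 2 = ((k : ℝ) + 1 / 2) + 1 by push_cast; ring,
    Real.Gamma_add_one (by positivity),
    show -(((k : ℝ) + 1 / 2) + 1) = -((k : ℝ) + 1 / 2) + (-1) by ring, Real.rpow_add hl,
    Real.rpow_neg_one]
  field_simp

/-- **The moments**: strictly log-concave after division by the Gamma function. -/
theorem moment_lt {F : ℝ → ℝ} (hc : Continuous F) (hF : ∀ u, 0 < u → 0 < F u)
    (hcc : StrictConcaveOn ℝ (Ioi (0 : ℝ)) fun x => Real.log (F (√x))) (m : ℕ)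
    (hi : ∀ i, i ≤ 2 → IntegrableOn (fun u => F u * u ^ (2 * (m + i))) (Ioi 0)) :
    ((m : ℝ) + 1 / 2) * (∫ u in Ioi (0 : ℝ), F u * u ^ (2 * m)) *
        (∫ u in Ioi (0 : ℝ), F u * u ^ (2 * (m + 2))) <
      ((m : ℝ) + 3 / 2) * (∫ u in Ioi (0 : ℝ), F u * u ^ (2 * (m + 1))) ^ 2 := by
  obtain ⟨W, hW⟩ : ∃ W : ℕ → ℝ, W = fun i => ∫ u in Ioi (0 : ℝ), F u * u ^ (2 * (m + i)) := ⟨_, rfl⟩
  have hWp : ∀ i, i ≤ 2 → 0 < W i := fun i h => by
    rw [hW]
    exact setIntegral_pos_of_point (hc.mul (continuous_pow _)).continuousOn (hi i h)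
      (fun u hu => (mul_pos (hF u hu) (pow_pos hu _)).le) one_pos (mul_pos (hF 1 one_pos) (by simp))
  show ((m : ℝ) + 1 / 2) * _ * _ < _
  rw [show (∫ u in Ioi (0 : ℝ), F u * u ^ (2 * m)) = W 0 by rw [hW]; rfl,
    show (∫ u in Ioi (0 : ℝ), F u * u ^ (2 * (m + 2))) = W 2 by rw [hW],
    show (∫ u in Ioi (0 : ℝ), F u * u ^ (2 * (m + 1))) = W 1 by rw [hW]]
  have w0 := hWp 0 (by norm_num)
  have w2 := hWp 2 le_rfl
  obtain ⟨l, hl⟩ : ∃ l, l = √(((m : ℝ) + 1 / 2) * ((m : ℝ) + 3 / 2) * W 0 / W 2) := ⟨_, rfl⟩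
  have hl0 : 0 < l := hl ▸ Real.sqrt_pos.2 (by positivity)
  have hl2 : l ^ 2 = ((m : ℝ) + 1 / 2) * ((m : ℝ) + 3 / 2) * W 0 / W 2 := by
    rw [hl, Real.sq_sqrt (by positivity)]
  obtain ⟨c, hcdef⟩ : ∃ c, c = W 0 / gaussMoment l m := ⟨_, rfl⟩
  have hc0 : 0 < c := hcdef ▸ div_pos w0 (gaussMoment_pos hl0 m)
  obtain ⟨D, hD⟩ : ∃ D : ℝ → ℝ, D = fun u => F u - c * Real.exp (-l * u ^ 2) := ⟨_, rfl⟩
  have hDc : Continuous D := by rw [hD]; fun_prop
  have hDi : ∀ i, i ≤ 2 → IntegrableOn (fun u => D u * u ^ (2 * (m + i))) (Ioi 0) := fun i h => by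
    refine ((hi i h).sub ((integrableOn_gaussMoment hl0 (m + i)).const_mul c)).congr_fun
      (fun u _ => ?_) measurableSet_Ioi
    simp only [hD, Pi.sub_apply]
    ring
  have hDint : ∀ i, i ≤ 2 → (∫ u in Ioi (0 : ℝ), D u * u ^ (2 * (m + i))) =
      W i - c * gaussMoment l (m + i) := fun i h => by
    rw [hW, gaussMoment, ← integral_const_mul, ← integral_sub (hi i h)
      ((integrableOn_gaussMoment hl0 (m + i)).const_mul c)]
    refine setIntegral_congr_fun measurableSet_Ioi fun u _ => ?_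
    simp only [hD]
    ring
  have hg1 : c * gaussMoment l (m + 1) = W 0 * (((m : ℝ) + 1 / 2) / l) := by
    rw [gaussMoment_succ hl0, hcdef]
    have := (gaussMoment_pos hl0 m).ne'
    field_simp
  have hD0 : (∫ u in Ioi (0 : ℝ), D u * u ^ (2 * m)) = 0 := by
    have := hDint 0 (by norm_num)
    simp only [add_zero] at this
    rw [this, hcdef, div_mul_cancel₀ _ (gaussMoment_pos hl0 m).ne', sub_self]
  have hD2 : (∫ u in Ioi (0 : ℝ), D u * u ^ (2 * (m + 2))) = 0 := by
    rw [hDint 2 le_rfl, show m + 2 = m + 1 + 1 from rfl, gaussMoment_succ hl0 (m + 1),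
      mul_left_comm, hg1]
    push_cast
    rw [sub_eq_zero]
    calc W 2 = W 0 * (((m : ℝ) + 1 / 2) * ((m : ℝ) + 3 / 2)) / l ^ 2 := by
          rw [hl2]; field_simp
      _ = _ := by field_simp; ring
  obtain ⟨φ, hφ⟩ : ∃ φ : ℝ → ℝ, φ = fun x => Real.log (F (√x)) + (l * x - Real.log c) := ⟨_, rfl⟩
  have hφc : StrictConcaveOn ℝ (Ioi (0 : ℝ)) φ := hφ ▸ hcc.add_concaveOn
    ⟨convex_Ioi 0, fun x _ y _ a b _ _ hab => le_of_eq (by
      simp only [smul_eq_mul]; linear_combination (-Real.log c) * hab)⟩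
  have hsign : ∀ u : ℝ, 0 < u → (0 < D u ↔ 0 < φ (u ^ 2)) := fun u hu => by
    have he : 0 < c * Real.exp (-l * u ^ 2) := mul_pos hc0 (Real.exp_pos _)
    simp only [hD, hφ, Real.sqrt_sq hu.le]
    rw [sub_pos, ← Real.log_lt_log_iff he (hF u hu), Real.log_mul hc0.ne' (Real.exp_pos _).ne',
      Real.log_exp]
    constructor <;> intro h <;> linarith
  obtain ⟨S, hS⟩ : ∃ S, S = {x ∈ Ioi (0 : ℝ) | 0 < φ x} := ⟨_, rfl⟩
  have hSconv : Convex ℝ S := hS ▸ hφc.concaveOn.convex_gt 0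
  have hle : ∀ u : ℝ, 0 < u → u ^ 2 ∉ S → D u ≤ 0 := fun u hu h => le_of_not_gt fun hpos =>
    h (by rw [hS]; exact ⟨pow_pos hu 2, (hsign u hu).1 hpos⟩)
  have hDi0 : IntegrableOn (fun u => D u * u ^ (2 * m)) (Ioi 0) := by
    simpa using hDi 0 (by norm_num)
  have hne : S.Nonempty := by
    by_contra hno
    rw [not_nonempty_iff_eq_empty] at hno
    have hDle : ∀ u, 0 < u → D u ≤ 0 := fun u hu => hle u hu (by simp [hno])
    have hzero : ∀ u, 0 < u → D u = 0 := by
      intro u hu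
      by_contra hne0
      have := setIntegral_pos_of_point (g := fun v => -(D v * v ^ (2 * m))) (by fun_prop)
        hDi0.neg (fun v hv =>
          neg_nonneg.2 (mul_nonpos_of_nonpos_of_nonneg (hDle v hv) (pow_nonneg hv.le _))) hu
        (neg_pos.2 (mul_neg_of_neg_of_pos (lt_of_le_of_ne (hDle u hu) hne0) (pow_pos hu _)))
      rw [integral_neg, hD0, neg_zero] at this
      exact lt_irrefl _ this
    have h0 : ∀ x, 0 < x → φ x = 0 := fun x hx => by
      have h := hzero (√x) (Real.sqrt_pos.2 hx)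
      simp only [hD, sub_eq_zero, Real.sq_sqrt hx.le] at h
      simp only [hφ, h, Real.log_mul hc0.ne' (Real.exp_pos _).ne', Real.log_exp]
      ring
    have := hφc.2 (Set.mem_Ioi.2 one_pos : (1 : ℝ) ∈ Ioi 0) (show (3 : ℝ) ∈ Ioi 0 by norm_num)
      (show (1 : ℝ) ≠ 3 by norm_num) (show (0 : ℝ) < 1 / 2 by norm_num)
      (show (0 : ℝ) < 1 / 2 by norm_num) (by norm_num)
    rw [h0 1 one_pos, h0 3 (by norm_num), h0 _ (by norm_num)] at this
    simp at this
  have hbelow : BddBelow S := ⟨0, fun x hx => by rw [hS] at hx; exact le_of_lt hx.1⟩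
  obtain ⟨a, ha⟩ : ∃ a, a = sInf S := ⟨_, rfl⟩
  have ha0 : 0 ≤ a := ha ▸ le_csInf hne fun x hx => by rw [hS] at hx; exact le_of_lt hx.1
  have hopen : IsOpen S := by
    rw [hS]
    have hcont : ContinuousOn φ (Ioi 0) := by
      rw [hφ]
      exact ((hc.comp Real.continuous_sqrt).continuousOn.log fun x hx =>
        (hF _ (Real.sqrt_pos.2 hx)).ne').add (by fun_prop)
    exact hcont.isOpen_inter_preimage isOpen_Ioi isOpen_Ioi
  obtain ⟨x₀, hx₀⟩ := hne
  have hlta : a < x₀ := by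
    obtain ⟨ε, hε, hball⟩ := Metric.isOpen_iff.1 hopen x₀ hx₀
    have : a ≤ x₀ - ε / 2 := ha ▸ csInf_le hbelow (hball (by
      rw [Metric.mem_ball, Real.dist_eq, abs_lt]; constructor <;> linarith))
    linarith
  have hx₀0 : 0 < x₀ := by rw [hS] at hx₀; exact hx₀.1
  have hD₀ : 0 < D (√x₀) := (hsign _ (Real.sqrt_pos.2 hx₀0)).2 (by
    rw [Real.sq_sqrt hx₀0.le]; rw [hS] at hx₀; exact hx₀.2)
  have hout : ∀ u, 0 < u → u ^ 2 < a → D u ≤ 0 := fun u hu h => hle u hu fun hmem =>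
    absurd (ha ▸ csInf_le hbelow hmem) (not_le.2 h)
  have hin : ∀ u, 0 < u → u ^ 2 ∈ S → 0 < D u := fun u hu hmem =>
    (hsign u hu).2 (by rw [hS] at hmem; exact hmem.2)
  have key : 0 < ∫ u in Ioi (0 : ℝ), D u * u ^ (2 * (m + 1)) := by
    by_cases hab : BddAbove S
    · obtain ⟨b, hb⟩ : ∃ b, b = sSup S := ⟨_, rfl⟩
      have hltb : x₀ < b := by
        obtain ⟨ε, hε, hball⟩ := Metric.isOpen_iff.1 hopen x₀ hx₀
        have : x₀ + ε / 2 ≤ b := hb ▸ le_csSup hab (hball (by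
          rw [Metric.mem_ball, Real.dist_eq, abs_lt]; constructor <;> linarith))
        linarith
      have hmid : Ioo a b ⊆ S := ha ▸ hb ▸
        (IsConnected.Ioo_csInf_csSup_subset ⟨⟨x₀, hx₀⟩, hSconv.isPreconnected⟩ hbelow hab)
      obtain ⟨g, hg⟩ : ∃ g : ℝ → ℝ,
          g = fun u => -((u ^ 2 - a) * (u ^ 2 - b) * (D u * u ^ (2 * m))) := ⟨_, rfl⟩
      have hge : g = fun u => (a + b) * (D u * u ^ (2 * (m + 1))) -
          D u * u ^ (2 * (m + 2)) - a * b * (D u * u ^ (2 * m)) := by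
        rw [hg]
        funext u
        ring
      have hgi : IntegrableOn g (Ioi 0) := hge ▸ (((hDi 1 (by norm_num)).const_mul _).sub
        (hDi 2 le_rfl)).sub (hDi0.const_mul _)
      have hpos := setIntegral_pos_of_point (g := g) (by rw [hg]; fun_prop) hgi (fun u hu => by
          rw [hg]
          refine neg_nonneg.2 ?_
          rw [← mul_assoc]
          refine mul_nonpos_of_nonpos_of_nonneg ?_ (pow_nonneg hu.le _)
          rcases lt_trichotomy (u ^ 2) a with h | h | h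
          · exact mul_nonpos_of_nonneg_of_nonpos
              (mul_nonneg_of_nonpos_of_nonpos (by linarith) (by linarith)) (hout u hu h)
          · simp [h]
          rcases lt_trichotomy (u ^ 2) b with h' | h' | h'
          · exact mul_nonpos_of_nonpos_of_nonneg
              (mul_nonpos_of_nonneg_of_nonpos (by linarith) (by linarith))
              (hin u hu (hmid ⟨h, h'⟩)).le
          · simp [h']
          · exact mul_nonpos_of_nonneg_of_nonpos (mul_nonneg (by linarith) (by linarith))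
              (hle u hu fun hmem => absurd (hb ▸ le_csSup hab hmem) (not_le.2 h')))
        (Real.sqrt_pos.2 hx₀0) (by
          rw [hg]
          refine neg_pos.2 (mul_neg_of_neg_of_pos ?_
            (mul_pos hD₀ (pow_pos (Real.sqrt_pos.2 hx₀0) _)))
          rw [Real.sq_sqrt hx₀0.le]
          exact mul_neg_of_pos_of_neg (by linarith) (by linarith))
      rw [hge] at hpos
      simp only at hpos
      rw [integral_sub (((hDi 1 (by norm_num)).const_mul _).sub' (hDi 2 le_rfl))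
        (hDi0.const_mul _), integral_sub ((hDi 1 (by norm_num)).const_mul _) (hDi 2 le_rfl),
        integral_const_mul, integral_const_mul, hD2] at hpos
      rw [hD0, mul_zero, sub_zero, sub_zero] at hpos
      exact pos_of_mul_pos_right hpos (by linarith)
    · have hmid : Ioi a ⊆ S := ha ▸ hSconv.isPreconnected.Ioi_csInf_subset hbelow hab
      obtain ⟨g, hg⟩ : ∃ g : ℝ → ℝ, g = fun u => (u ^ 2 - a) * (D u * u ^ (2 * m)) := ⟨_, rfl⟩
      have hge : g = fun u => D u * u ^ (2 * (m + 1)) - a * (D u * u ^ (2 * m)) := by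
        rw [hg]
        funext u
        ring
      have hgi : IntegrableOn g (Ioi 0) :=
        hge ▸ (hDi 1 (by norm_num)).sub (hDi0.const_mul _)
      have hpos := setIntegral_pos_of_point (g := g) (by rw [hg]; fun_prop) hgi (fun u hu => by
          rw [hg]
          simp only [← mul_assoc]
          refine mul_nonneg ?_ (pow_nonneg hu.le _)
          rcases lt_trichotomy (u ^ 2) a with h | h | h
          · exact mul_nonneg_of_nonpos_of_nonpos (by linarith) (hout u hu h)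
          · simp [h]
          · exact mul_nonneg (by linarith) (hin u hu (hmid h)).le)
        (Real.sqrt_pos.2 hx₀0) (by
          rw [hg]
          simp only [Real.sq_sqrt hx₀0.le]
          exact mul_pos (by linarith) (mul_pos hD₀ (pow_pos (Real.sqrt_pos.2 hx₀0) _)))
      rw [hge, integral_sub (hDi 1 (by norm_num)) (hDi0.const_mul _),
        integral_const_mul, hD0, mul_zero, sub_zero] at hpos
      exact hpos
  rw [hDint 1 (by norm_num), hg1, sub_pos] at key
  have h2 := pow_lt_pow_left₀ key (by positivity) two_ne_zero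
  rw [mul_pow, div_pow, hl2] at h2
  have h3 : W 0 ^ 2 * (((m : ℝ) + 1 / 2) ^ 2 / (((m : ℝ) + 1 / 2) * ((m : ℝ) + 3 / 2) * W 0 / W 2))
      = ((m : ℝ) + 1 / 2) * W 0 * W 2 / ((m : ℝ) + 3 / 2) := by
    field_simp
  rw [h3, div_lt_iff₀ (by positivity)] at h2
  linarith

end FA.XiTuran

end
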