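import Fermat.Agent.XiTuran.Concave
import Fermat.Agent.XiTuran.Moment
import Fermat.Agent.JensenPolynomials.GORZ
import Fermat.Agent.JensenPolynomials.Sequence

/-!
# The Turán inequalities for the moments of `exp (t u²) Φ u`
-/

set_option autoImplicit false

noncomputable section

namespace FA.XiTuran

open MeasureTheory Set
open FA.DeBruijnNewman (polyaPhi polyaPhi_pos continuous_polyaPhi)
open FA.JensenPolynomials
open scoped Real

theorem momTotal_turan (t : ℝ) (n : ℕ) :
    ((n : ℝ) + 1 / 2) * momTotal t n * momTotal t (n + 2) <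
      ((n : ℝ) + 3 / 2) * momTotal t (n + 1) ^ 2 := by
  have hcc : StrictConcaveOn ℝ (Ioi (0 : ℝ))
      fun x => Real.log (Real.exp (t * √x ^ 2) * polyaPhi (√x)) := by
    refine (strictConcaveOn_log_polyaPhi_sqrt t).congr fun x hx => ?_
    simp only
    rw [Real.sq_sqrt (le_of_lt hx), Real.log_mul (Real.exp_pos _).ne' (polyaPhi_pos _).ne',
      Real.log_exp, add_comm]
  exact moment_lt (F := fun u => Real.exp (t * u ^ 2) * polyaPhi u)
    ((by fun_prop : Continuous fun u : ℝ => Real.exp (t * u ^ 2)).mul continuous_polyaPhi)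
    (fun u _ => mul_pos (Real.exp_pos _) (polyaPhi_pos u)) hcc n
    (fun i _ => integrableOn_moment t (n + i))

/-- **Turán's inequality**, at every `t` and `n`. -/
theorem xiTaylor_turan (t : ℝ) (n : ℕ) :
    xiTaylor t n * xiTaylor t (n + 2) < xiTaylor t (n + 1) ^ 2 := by
  have h0 := xiTaylor_pos t n
  have hW := momTotal_pos t n
  have hW2 := momTotal_pos t (n + 2)
  have e : ∀ j, xiTaylor t (n + j) = xiTaylor t n *
      (momTotal t (n + j) / momTotal t n / (4 ^ j * riseFac ((n : ℝ) + 1 / 2) j)) := fun j => by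
    rw [← xiTaylor_ratio, mul_div_cancel₀ _ h0.ne']
  rw [e 1, e 2, mul_pow, ← mul_assoc, ← pow_two]
  refine mul_lt_mul_of_pos_left ?_ (pow_pos h0 2)
  simp only [riseFac, Finset.prod_range_succ, Finset.prod_range_zero, Nat.cast_zero, Nat.cast_one,
    add_zero, one_mul]
  rw [div_pow, div_pow, div_div, div_div, div_lt_div_iff₀ (by positivity) (by positivity)]
  nlinarith [mul_lt_mul_of_pos_left (momTotal_turan t n)
    (show 0 < momTotal t n * (16 * ((n : ℝ) + 1 / 2)) by positivity)]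

/-- The Jensen polynomials of degree `2`. -/
theorem jensen_two_hyperbolic (t : ℝ) (n : ℕ) :
    (∃ S : Finset ℝ, S.card = 2 ∧ ∀ x ∈ S,
      ∑ j ∈ Finset.range (2 + 1), ((2 : ℕ).choose j : ℝ) * xiTaylor t (n + j) * x ^ j = 0) ∧
      ∀ z : ℂ, jensenSum (xiTaylor t) 2 n z = 0 → z.im = 0 := by
  classical
  obtain ⟨a, ha⟩ : ∃ a, a = xiTaylor t n := ⟨_, rfl⟩
  obtain ⟨b, hb⟩ : ∃ b, b = xiTaylor t (n + 1) := ⟨_, rfl⟩
  obtain ⟨c, hc⟩ : ∃ c, c = xiTaylor t (n + 2) := ⟨_, rfl⟩
  have hc0 : 0 < c := hc ▸ xiTaylor_pos t _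
  have hd : 0 < b ^ 2 - a * c := by
    rw [ha, hb, hc]
    linarith [xiTaylor_turan t n]
  obtain ⟨s, hs⟩ : ∃ s, s = √(b ^ 2 - a * c) := ⟨_, rfl⟩
  have hs0 : 0 < s := hs ▸ Real.sqrt_pos.2 hd
  have hs2 : s ^ 2 = b ^ 2 - a * c := by rw [hs, Real.sq_sqrt hd.le]
  refine real_zeros_of_card (xiTaylor_pos t n) (S := {(-b + s) / c, (-b - s) / c}) ?_ fun x hx => ?_
  · refine Finset.card_pair fun h => ?_
    rw [div_left_inj' hc0.ne'] at h
    linarith
  · rw [Finset.mem_insert, Finset.mem_singleton] at hx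
    simp only [Finset.sum_range_succ, Finset.sum_range_zero, Nat.choose_zero_right,
      Nat.choose_one_right, Nat.choose_self, add_zero, zero_add, pow_zero, pow_one]
    push_cast
    rw [← ha, ← hb, ← hc]
    rcases hx with rfl | rfl <;>
    · field_simp
      linear_combination hs2

end FA.XiTuran

end
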